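import Fermat.Agent.CFT.Idele.Model
import Mathlib.NumberTheory.NumberField.InfinitePlace.TotallyRealComplex
import Mathlib.FieldTheory.IsAlgClosed.Basic
import Mathlib.Analysis.Complex.Basic

/-!
# Totally complex subfields of `ℚ̄`

`TotComplex K`: no embedding of `ℚ̄` in `ℂ` makes `K` real. This is the hypothesis replacing `p ≠ 2`
in the Kummer part of the class field theory.
-/

set_option autoImplicit false

noncomputable section

namespace Fermat.Agent.CFT.Idele

open Fermat.Agent.Arith NumberField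

/-- No complex embedding of `ℚ̄` makes `K` real. -/
def TotComplex (K : IntermediateField ℚ QBar) : Prop :=
  ∀ φ : QBar →+* ℂ, ∃ x ∈ K, (φ x).im ≠ 0

theorem TotComplex.mono {K L : IntermediateField ℚ QBar} (h : TotComplex K) (hle : K ≤ L) :
    TotComplex L := fun φ => by
  obtain ⟨x, hx, hx'⟩ := h φ
  exact ⟨x, hle hx, hx'⟩

/-- A field with a primitive `p`-th root of unity, `p > 2`, is totally complex. -/
theorem totComplex_of_primitive {K : IntermediateField ℚ QBar} {p : ℕ} (hp : 2 < p) {ζ : QBar}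
    (hζ : IsPrimitiveRoot ζ p) (hζK : ζ ∈ K) : TotComplex K := fun φ => by
  refine ⟨ζ, hζK, fun him => ?_⟩
  have h := hζ.map_of_injective φ.injective
  have hr : φ ζ = ((φ ζ).re : ℂ) := Complex.ext rfl (by simpa using him)
  have hpow : (φ ζ).re ^ p = 1 := by
    have := h.pow_eq_one
    rw [hr] at this
    exact_mod_cast this
  have h1 : |(φ ζ).re| = 1 := by
    have := congrArg abs hpow
    rw [abs_pow, abs_one] at this
    exact (pow_eq_one_iff_of_nonneg (abs_nonneg _) (by omega)).mp this
  have h2 : φ ζ ^ 2 = 1 := by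
    rw [hr, ← Complex.ofReal_pow, ← sq_abs, h1]; simp
  have := Nat.le_of_dvd (by norm_num) (h.dvd_of_pow_eq_one 2 h2)
  omega

/-- A field with a square root of a negative rational is totally complex. -/
theorem totComplex_of_sq_eq_neg {K : IntermediateField ℚ QBar} {x : QBar} (hx : x ∈ K) {c : ℚ}
    (hc : c < 0) (h : x ^ 2 = algebraMap ℚ QBar c) : TotComplex K := fun φ => by
  refine ⟨x, hx, fun him => ?_⟩
  have hr : φ x = ((φ x).re : ℂ) := Complex.ext rfl (by simpa using him)
  have := congrArg φ h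
  rw [map_pow, hr, eq_ratCast, map_ratCast] at this
  have h' : (φ x).re ^ 2 = (c : ℝ) := by exact_mod_cast this
  have : (0 : ℝ) ≤ c := h' ▸ sq_nonneg _
  exact absurd hc (not_lt.mpr (by exact_mod_cast this))

/-- No real places. -/
theorem nrRealPlaces_eq_zero_of_embedded {F : Type*} [Field F] [NumberField F] (i : F →+* QBar)
    (h : ∀ φ : QBar →+* ℂ, ∃ x : F, (φ (i x)).im ≠ 0) :
    InfinitePlace.nrRealPlaces F = 0 := by
  rw [nrRealPlaces_eq_zero_iff, isTotallyComplex_iff]
  intro v
  rw [InfinitePlace.isComplex_iff]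
  intro hreal
  letI : Algebra F QBar := i.toAlgebra
  letI : Algebra F ℂ := v.embedding.toAlgebra
  haveI : Algebra.IsAlgebraic F QBar := Algebra.IsAlgebraic.tower_top (K := ℚ) F
  let φ : QBar →ₐ[F] ℂ := IsAlgClosed.lift
  obtain ⟨x, hx⟩ := h φ.toRingHom
  refine hx ?_
  have hφ : φ (i x) = v.embedding x := φ.commutes x
  have hc := RingHom.congr_fun hreal x
  rw [ComplexEmbedding.conjugate_coe_eq, Complex.conj_eq_iff_im] at hc
  show (φ (i x)).im = 0
  rw [hφ]; exact hc

theorem TotComplex.nrRealPlaces_eq_zero {K : IntermediateField ℚ QBar} [NumberField K]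
    (h : TotComplex K) : InfinitePlace.nrRealPlaces K = 0 :=
  nrRealPlaces_eq_zero_of_embedded K.val.toRingHom fun φ => by
    obtain ⟨x, hx, hx'⟩ := h φ
    exact ⟨⟨x, hx⟩, hx'⟩

end Fermat.Agent.CFT.Idele
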