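import Fermat.Agent.CFT.Idele.FirstInequality
import Fermat.Agent.CFT.Idele.IndexLemma

/-!
# The first inequality for Kummer extensions

`exists_not_norm` for the normal closure of `K(b ^ (1/p))`, in the language of `PreIdele`.
-/

set_option autoImplicit false
set_option synthInstance.maxHeartbeats 200000
set_option linter.style.haveILetI false

noncomputable section

namespace Fermat.Agent.CFT.Idele

open ExtCitation Fermat.Agent.Arith IntermediateField

local instance factPrimeKummerStep (q : Nat.Primes) : Fact (q : ℕ).Prime := ⟨q.2⟩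

variable {p : ℕ} [hp : Fact p.Prime] {ζ : QBar} {K : IntermediateField ℚ QBar}
  (hζ : IsPrimitiveRoot ζ p) (hζK : ζ ∈ K)
variable {b : QBar} (hbK : b ∈ K) (hb0 : b ≠ 0) {g₀ : GQ} (hg₀ : g₀ ∈ K.fixingSubgroup)
  (hkum : kum hζ g₀ b = 1)

include hζK hbK hb0 hg₀ hkum in
/-- The step of a Kummer extension, in a normal field above it. -/
theorem step_kumField (L : IntermediateField ℚ QBar) [FiniteDimensional ℚ L] [Normal ℚ L]
    (hL : kumField K (rootP p b) ≤ L) :
    Step p (K.fixingSubgroup.map (res L)) ((kumField K (rootP p b)).fixingSubgroup.map (res L))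
      (res L g₀) := by
  set β := rootP p b
  set M := kumField K β
  have hmem : ∀ t : GQ, res L t ∈ M.fixingSubgroup.map (res L) → t ∈ M.fixingSubgroup := by
    rintro t ⟨u, hu, hut⟩
    rw [IntermediateField.mem_fixingSubgroup_iff]
    intro x hx
    have h1 := congrArg (fun σ : L ≃ₐ[ℚ] L => ((σ ⟨x, hL hx⟩ : L) : QBar)) hut
    simp only [res_apply] at h1
    exact h1.symm.trans ((IntermediateField.mem_fixingSubgroup_iff _ _).mp hu x hx)
  have hkp := kum_pow hζ hζK hbK hb0 hg₀ hkum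
  have hnot : g₀ ∉ M.fixingSubgroup := fun h => by
    have := (kum_eq_zero_iff hζ hζK hg₀ hbK hb0 (rootP_pow b)).mpr
      (mem_fixingSubgroup_kumField.mp h).2
    exact one_ne_zero (hkum.symm.trans this)
  refine ⟨Subgroup.map_mono (IntermediateField.fixingSubgroup_antitone (le_kumField β)),
    ⟨g₀, hg₀, rfl⟩, fun h => hnot (hmem g₀ h), ?_, ⟨g₀ ^ p, ?_, map_pow _ _ _⟩, ?_⟩
  · rw [Subgroup.relIndex, Subgroup.index]
    conv_rhs => rw [← ZMod.card p, ← Nat.card_eq_fintype_card]
    refine (Nat.card_eq_of_bijective (fun i : ZMod p =>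
      (QuotientGroup.mk (⟨res L (g₀ ^ i.val), ⟨g₀ ^ i.val, pow_mem hg₀ _, rfl⟩⟩ :
        K.fixingSubgroup.map (res L)) : _ ⧸ _)) ⟨fun i j hij => ?_, fun y => ?_⟩).symm
    · have h := QuotientGroup.eq.mp hij
      rw [Subgroup.mem_subgroupOf, Subgroup.coe_mul, InvMemClass.coe_inv, ← map_inv,
        ← map_mul] at h
      have hg := hmem _ h
      have h0 := (kum_eq_zero_iff hζ hζK (mul_mem (inv_mem (pow_mem hg₀ i.val)) (pow_mem hg₀ j.val))
        hbK hb0 (rootP_pow b)).mpr (mem_fixingSubgroup_kumField.mp hg).2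
      have h1 := kum_comp hζ hζK (pow_mem hg₀ i.val)
        (mul_mem (inv_mem (pow_mem hg₀ i.val)) (pow_mem hg₀ j.val)) hbK hb0
      rw [mul_inv_cancel_left, hkp, hkp, h0, add_zero, ZMod.natCast_zmod_val,
        ZMod.natCast_zmod_val] at h1
      exact h1.symm
    · obtain ⟨⟨_, σ, hσ, rfl⟩, rfl⟩ := QuotientGroup.mk_surjective y
      refine ⟨kum hζ σ b, QuotientGroup.eq.mpr ?_⟩
      rw [Subgroup.mem_subgroupOf, Subgroup.coe_mul, InvMemClass.coe_inv, ← map_inv, ← map_mul]
      exact ⟨_, inv_pow_mul_mem hζ hζK hbK hb0 hg₀ hkum hσ, rfl⟩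
  · refine mem_fixingSubgroup_kumField.mpr ⟨pow_mem hg₀ p,
      (kum_eq_zero_iff hζ hζK (pow_mem hg₀ p) hbK hb0 (rootP_pow b)).mp ?_⟩
    rw [hkp, ZMod.natCast_self]
  · rintro _ ⟨u, hu, rfl⟩
    refine ⟨g₀⁻¹ * u * g₀, ?_, by rw [map_mul, map_mul, map_inv]⟩
    obtain ⟨huK, huβ⟩ := mem_fixingSubgroup_kumField.mp hu
    have hm := mul_mem (mul_mem (inv_mem hg₀) huK) hg₀
    refine mem_fixingSubgroup_kumField.mpr ⟨hm,
      (kum_eq_zero_iff hζ hζK hm hbK hb0 (rootP_pow b)).mp ?_⟩
    have h1 := kum_comp hζ hζK hg₀ hm hbK hb0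
    rw [show g₀ * (g₀⁻¹ * u * g₀) = u * g₀ by group, kum_comp hζ hζK huK hg₀ hbK hb0,
      (kum_eq_zero_iff hζ hζK huK hbK hb0 (rootP_pow b)).mpr huβ, zero_add] at h1
    exact left_eq_add.mp h1

/-- A norm of a step is a product of translates. -/
theorem coe_prod_smul (L : IntermediateField ℚ QBar) [FiniteDimensional ℚ L] [Normal ℚ L]
    (g₀ : GQ) (n : ℕ) (y : idl L) :
    ((∏ i ∈ Finset.range n, res L g₀ ^ i • y : idl L) : PreIdele) =
      normStep n g₀ (y : PreIdele) := by
  rw [SubmonoidClass.coe_finsetProd, normStep_eq_prod]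
  exact Finset.prod_congr rfl fun i _ => coe_smul_idl L _ _ (map_pow _ _ _)

/-- An element of `idl L` is fixed by the image of `Gal(ℚ̄/K)` iff it is an idele of `K`. -/
theorem mem_fixedBy_idl_iff {K : IntermediateField ℚ QBar} (L : IntermediateField ℚ QBar)
    [FiniteDimensional ℚ L] [Normal ℚ L] (f : idl L) :
    f ∈ fixedBy (K.fixingSubgroup.map (res L)) (idl L) ↔ (f : PreIdele) ∈ idl K := by
  constructor
  · intro h
    obtain ⟨h1, h2, -⟩ := mem_idl.1 f.2
    refine mem_idl.2 ⟨h1, h2, fun s hs => ?_⟩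
    exact (coe_smul_idl L _ f rfl).symm.trans
      (congrArg Subtype.val (h (res L s) ⟨s, hs, rfl⟩))
  · rintro h _ ⟨s, hs, rfl⟩
    exact Subtype.ext ((coe_smul_idl L _ f rfl).trans ((mem_idl.1 h).2.2 s hs))

/-- The Kummer extensions of a number field satisfy the first inequality. -/
theorem firstIneq [FiniteDimensional ℚ K] (hTC : TotComplex K) : FirstIneq p K := by
  intro ζ hζ hζK b hbK hb0 hr g₀ hg₀ hkum
  set M := kumField K (rootP p b)
  let L : IntermediateField ℚ QBar := IntermediateField.normalClosure ℚ M QBar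
  haveI : Normal ℚ L := normalClosure.normal ℚ M QBar
  have hML : M ≤ L := M.le_normalClosure
  have hKL : K ≤ L := (le_kumField _).trans hML
  obtain ⟨x, hx, hne⟩ := exists_not_norm (step_kumField hζ hζK hbK hb0 hg₀ hkum L hML) (hTC.mono (by
      intro x hx
      refine ⟨⟨x, hKL hx⟩, ?_, rfl⟩
      rintro ⟨_, s, hs, rfl⟩
      exact Subtype.ext ((res_apply L s _).trans
        ((IntermediateField.mem_fixingSubgroup_iff _ _).mp hs x hx))))
  refine ⟨x, (mem_fixedBy_idl_iff L x).mp hx, fun y hy c hc he => ?_⟩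
  let c' : Lˣ := Units.mk0 ⟨(c : QBar), hKL hc⟩ fun h => c.ne_zero (congrArg Subtype.val h)
  have hc' : c' ∈ fixedBy (K.fixingSubgroup.map (res L)) Lˣ := by
    rintro _ ⟨s, hs, rfl⟩
    exact Units.ext (Subtype.ext ((res_apply L s _).trans
      ((IntermediateField.mem_fixingSubgroup_iff _ _).mp hs (c : QBar) hc)))
  refine hne c' hc' ⟨y, idl_mono hML hy⟩ ((mem_fixedBy_idl_iff L _).mpr hy) (Subtype.ext ?_)
  rw [Subgroup.coe_mul, coe_prod_smul, he, mul_comm]
  show prin c * _ = prin (Units.map L.val.toRingHom.toMonoidHom c') * _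
  rw [show Units.map L.val.toRingHom.toMonoidHom c' = c from Units.ext rfl]

end Fermat.Agent.CFT.Idele
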