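import Fermat.Agent.CFT.Idele.KummerStep
import Fermat.Agent.CFT.Idele.SUnits
import Mathlib.GroupTheory.SpecificGroups.Cyclic.Basic
import Mathlib.FieldTheory.Finiteness

/-!
# The second inequality for a Kummer extension of degree `p`

The ideles of `K` modulo principal ideles and norms from `K(b ^ (1/p))` have order dividing `p`.
-/

set_option autoImplicit false
set_option synthInstance.maxHeartbeats 200000
set_option linter.style.haveILetI false

noncomputable section

namespace Fermat.Agent.CFT.Idele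

open ExtCitation Fermat.Agent.Arith IntermediateField

local instance factPrimeNormGenerator (q : Nat.Primes) : Fact (q : ℕ).Prime := ⟨q.2⟩

/-- Infinitely many solutions give an injective choice. -/
theorem exists_injective_choice {n : ℕ} (P : Fin n → Nat.Primes → Prop) (T : Finset ℕ)
    (h : ∀ i, ∀ S : Finset ℕ, ∃ q : Nat.Primes, (q : ℕ) ∉ S ∧ P i q) :
    ∃ ℓ : Fin n → Nat.Primes,
      Function.Injective ℓ ∧ ∀ i, (ℓ i : ℕ) ∉ T ∧ P i (ℓ i) := by
  classical
  induction n generalizing T with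
  | zero => exact ⟨Fin.elim0, fun i => i.elim0, fun i => i.elim0⟩
  | succ n ih =>
    obtain ⟨q, hqT, hq⟩ := h (Fin.last n) T
    obtain ⟨ℓ, hinj, hℓ⟩ := ih (fun i => P i.castSucc) (insert (q : ℕ) T) fun i => h i.castSucc
    refine ⟨Fin.snoc ℓ q, ?_, fun i => ?_⟩
    · intro i j hij
      induction i using Fin.lastCases with
      | last =>
        induction j using Fin.lastCases with
        | last => rfl
        | cast j =>
          rw [Fin.snoc_last, Fin.snoc_castSucc] at hij
          exact absurd (Finset.mem_insert_self (q : ℕ) T) (hij ▸ (hℓ j).1)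
      | cast i =>
        induction j using Fin.lastCases with
        | last =>
          rw [Fin.snoc_last, Fin.snoc_castSucc] at hij
          exact absurd (Finset.mem_insert_self (q : ℕ) T) (hij ▸ (hℓ i).1)
        | cast j =>
          rw [Fin.snoc_castSucc, Fin.snoc_castSucc] at hij
          exact congrArg Fin.castSucc (hinj hij)
    · induction i using Fin.lastCases with
      | last => rw [Fin.snoc_last]; exact ⟨hqT, hq⟩
      | cast i =>
        rw [Fin.snoc_castSucc]
        exact ⟨fun h' => (hℓ i).1 (Finset.mem_insert_of_mem h'), (hℓ i).2⟩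

variable {p : ℕ} [hp : Fact p.Prime]

variable (p) in
/-- The norm of a step, as a homomorphism. -/
def normStepHom (g₀ : GQ) : PreIdele →* PreIdele where
  toFun := normStep p g₀
  map_one' := normStep_one g₀
  map_mul' := normStep_mul g₀

variable {ζ : QBar} {K : IntermediateField ℚ QBar} [FiniteDimensional ℚ K]

/-- Principal ideles times norms from `K(b ^ (1/p))`. -/
def normSub (p : ℕ) [Fact p.Prime] (K : IntermediateField ℚ QBar) (b : QBar) (g₀ : GQ) :
    Subgroup PreIdele :=
  prinSub K ⊔ (idl (kumField K (rootP p b))).map (normStepHom p g₀)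

/-- The index of principal ideles and norms divides `p`. -/
theorem relIndex_normSub_dvd (hTC : TotComplex K) (hζ : IsPrimitiveRoot ζ p) (hζK : ζ ∈ K) {b : QBar}
    (hbK : b ∈ K) (hb0 : b ≠ 0) (hr : rootP p b ∉ K) {g₀ : GQ} (hg₀ : g₀ ∈ K.fixingSubgroup)
    (hkum : kum hζ g₀ b = 1) :
    (normSub p K b g₀).relIndex (idl K) ∣ p := by
  classical
  set bu : QBarˣ := Units.mk0 b hb0
  obtain ⟨T₀, hT₀⟩ := prin_mem_restricted bu
  obtain ⟨S, hTS, hS⟩ := exists_goodSet' hTC hζ hζK T₀
  have hbS : bu ∈ sUnits S K :=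
    mem_sUnits.mpr ⟨hbK, fun q hq g => hT₀ q (fun h => hq (hTS h)) g⟩
  set V := ModP p (sUnits S K)
  haveI : Finite V := Nat.finite_of_card_ne_zero hS.card
  haveI : Module.Finite (ZMod p) V := Module.Finite.of_finite
  set w : V := modClass p ⟨bu, hbS⟩
  have hw : w ≠ 0 := by
    intro h
    obtain ⟨y, hy⟩ := (modClass_eq_zero_iff _).mp h
    have hy' : ((y : QBarˣ) : QBar) ^ p = b := congrArg (fun z : sUnits S K => ((z : QBarˣ) : QBar)) hy
    obtain ⟨i, -, hi⟩ := exists_eq_zeta_pow_mul hζ (Units.ne_zero (y : QBarˣ))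
      ((rootP_pow b).trans hy'.symm)
    exact hr (hi ▸ mul_mem (pow_mem hζK i) (sUnits_le S K y.2))
  set W := (ZMod p ∙ w).dualAnnihilator
  have hWr : Module.finrank (ZMod p) W + 1 = Module.finrank (ZMod p) V := by
    have h := Subspace.finrank_add_finrank_dualAnnihilator_eq (ZMod p ∙ w)
    rw [finrank_span_singleton hw, add_comm] at h
    exact h
  set r := Module.finrank (ZMod p) W
  let B := Module.finBasis (ZMod p) W
  let φ : Fin r → Module.Dual (ZMod p) V := fun i => (B i : Module.Dual (ZMod p) V)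
  have hli : LinearIndependent (ZMod p) φ :=
    B.linearIndependent.map' W.subtype (Submodule.ker_subtype W)
  have hφw : ∀ i, φ i w = 0 := fun i =>
    (Submodule.mem_dualAnnihilator _).mp (B i).2 w (Submodule.mem_span_singleton_self w)
  obtain ⟨ℓ, hℓ, hℓP⟩ := exists_injective_choice (fun i q => ∃ g : GQ, fieldAt q K g = ⊥ ∧
      ∀ x : sUnits S K, ((∃ y ∈ fieldAt q K g, y ^ p = emb q (g ((x : QBarˣ) : QBar))) ↔
        φ i (modClass p x) = 0)) (S.image fun q : Nat.Primes => (q : ℕ)) fun i A =>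
    exists_prime_realising hζ hζK (sUnits_le S K) (sUnits_saturated S) (φ i) A
  choose g hbot hφ using fun i => (hℓP i).2
  have hout : ∀ i, ℓ i ∉ S := fun i h => (hℓP i).1 (Finset.mem_image_of_mem _ h)
  have hidx := relIndex_prinSub_sup_powAtT ℓ g hℓ hout hbot hφ hli hζ hζK hS (firstIneq hTC)
  rw [Module.natCard_eq_pow_finrank (K := ZMod p), Nat.card_zmod, Fintype.card_fin, ← hWr,
    pow_succ'] at hidx
  have hp' : (prinSub K ⊔ powAtT p S ℓ g K).relIndex (idl K) = p :=
    mul_right_cancel₀ (pow_ne_zero _ hp.out.ne_zero) hidx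
  have hle : prinSub K ⊔ powAtT p S ℓ g K ≤ normSub p K b g₀ := by
    refine sup_le le_sup_left fun f hf => Subgroup.mem_sup_right ?_
    obtain ⟨y, hy, he⟩ := exists_normStep_eq hζ hζK hbK hb0 hg₀ hkum hf.1.1 fun q h hh => by
      by_cases hq : q ∈ S
      · exact Or.inr (Or.inl (hf.2 q hq h hh))
      by_cases ht : ∃ i, ℓ i = q ∧ placeRep q K (g i) = h
      · obtain ⟨i, rfl, rfl⟩ := ht
        exact Or.inl (value_at_rep ℓ g (prin_mem_idl_iff.mpr (show bu ∈ unitsOf K from hbK)) i
          ((hφ i ⟨bu, hbS⟩).mpr (hφw i)))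
      · push Not at ht
        refine Or.inr (Or.inr ⟨fun h' => hq ?_, hf.1.2 q hq h hh ht, 1, one_mem _, one_ne_zero,
          ?_⟩)
        · rw [show q = ⟨p, hp.out⟩ from Subtype.ext h']; exact hS.mem
        · rw [norm_one, one_pow]; exact (mem_sUnits.mp hbS).2 q hq h
    exact ⟨y, hy, he⟩
  have hd := Subgroup.relIndex_dvd_of_le_left (idl K) hle
  rwa [hp'] at hd

/-- One idele generates the ideles modulo principal ideles and norms. -/
theorem exists_norm_generator (hTC : TotComplex K) (hζ : IsPrimitiveRoot ζ p) (hζK : ζ ∈ K) {b : QBar}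
    (hbK : b ∈ K) (hb0 : b ≠ 0) (hr : rootP p b ∉ K) {g₀ : GQ} (hg₀ : g₀ ∈ K.fixingSubgroup)
    (hkum : kum hζ g₀ b = 1) :
    ∃ x₀ ∈ idl K, ∀ f ∈ idl K, ∃ m : ℤ, ∃ y ∈ idl (kumField K (rootP p b)), ∃ c ∈ unitsOf K,
      f = x₀ ^ m * normStep p g₀ y * prin c := by
  set N := (normSub p K b g₀).subgroupOf (idl K)
  haveI : IsCyclic (idl K ⧸ N) := isCyclic_of_card_dvd_prime (p := p)
    (relIndex_normSub_dvd hTC hζ hζK hbK hb0 hr hg₀ hkum)
  obtain ⟨x, hx⟩ := IsCyclic.exists_generator (α := idl K ⧸ N)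
  obtain ⟨⟨x₀, hx₀⟩, rfl⟩ := QuotientGroup.mk_surjective x
  refine ⟨x₀, hx₀, fun f hf => ?_⟩
  obtain ⟨m, hm⟩ := hx (QuotientGroup.mk ⟨f, hf⟩)
  have h1 := QuotientGroup.eq.mp ((QuotientGroup.mk_zpow N ⟨x₀, hx₀⟩ m).trans hm)
  rw [Subgroup.mem_subgroupOf] at h1
  obtain ⟨_, ⟨c, hc, rfl⟩, _, ⟨y, hy, rfl⟩, e⟩ := Subgroup.mem_sup.mp h1
  refine ⟨m, y, hy, c, hc, ?_⟩
  simp only [Subgroup.coe_mul, InvMemClass.coe_inv, SubgroupClass.coe_zpow] at e
  rw [mul_assoc, mul_comm (normStep p g₀ y)]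
  exact (eq_inv_mul_iff_mul_eq.mp e).symm

end Fermat.Agent.CFT.Idele
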